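import Mathlib

set_option autoImplicit false

namespace Fermat.Agent.S42

open IntermediateField

theorem isAlgClosure_rat : IsAlgClosure ℚ (AlgebraicClosure ℚ) := by
  have e : (DivisionRing.toRatAlgebra : Algebra ℚ (AlgebraicClosure ℚ)) =
      AlgebraicClosure.instAlgebra ℚ := Subsingleton.elim _ _
  have h : @IsAlgClosure ℚ (AlgebraicClosure ℚ) _ _ (AlgebraicClosure.instAlgebra ℚ) _ :=
    inferInstance
  convert h

theorem normal_rat : Normal ℚ (AlgebraicClosure ℚ) := by
  have := isAlgClosure_rat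
  infer_instance

theorem isGalois_rat : IsGalois ℚ (AlgebraicClosure ℚ) := by
  have := isAlgClosure_rat
  infer_instance

/-- A finite subextension of `ℚ̄/ℚ` is contained in a Galois number field, packaged in the
shape used by the frozen statement. -/
theorem exists_numberField_of_finiteDimensional (L : IntermediateField ℚ (AlgebraicClosure ℚ))
    (hL : FiniteDimensional ℚ L) :
    ∃ (F : Type) (_ : Field F) (_ : NumberField F) (_ : IsGalois ℚ F)
      (_ : Algebra F (AlgebraicClosure ℚ)) (_ : IsScalarTower ℚ F (AlgebraicClosure ℚ)),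
      ∀ σ ∈ (AlgEquiv.restrictNormalHom (F := ℚ) (K₁ := AlgebraicClosure ℚ) F).ker,
        ∀ x ∈ L, σ x = x := by
  have := isGalois_rat
  let N : IntermediateField ℚ (AlgebraicClosure ℚ) := normalClosure ℚ L (AlgebraicClosure ℚ)
  have hfd : FiniteDimensional ℚ N := normalClosure.is_finiteDimensional ℚ L (AlgebraicClosure ℚ)
  have hgal : IsGalois ℚ N := IsGalois.normalClosure ℚ L (AlgebraicClosure ℚ)
  have hLN : L ≤ N := L.le_normalClosure
  refine ⟨↥N, inferInstance, ⟨⟩, hgal, inferInstance, inferInstance, ?_⟩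
  intro σ hσ x hx
  have h1 : AlgEquiv.restrictNormalHom (F := ℚ) (K₁ := AlgebraicClosure ℚ) (↥N) σ = 1 := hσ
  have h2 := AlgEquiv.restrictNormal_commutes σ (↥N) ⟨x, hLN hx⟩
  have h3 : σ.restrictNormal ↥N = 1 := h1
  rw [h3] at h2
  exact h2.symm

end Fermat.Agent.S42
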