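import Fermat.Agent.S42.Lead

set_option autoImplicit false
set_option linter.unusedSectionVars false

namespace Fermat.Agent.S42

open Polynomial WeierstrassCurve WeierstrassCurve.Affine

variable {F : Type*} [Field F] [DecidableEq F] (W : Affine F)

/-- The pair of coordinates of a point. -/
def pxy : W.Point → Option (F × F)
  | .zero => none
  | .some x y _ => some (x, y)

lemma pxy_injective : Function.Injective (pxy W) := by
  rintro (_ | ⟨x₁, y₁, h₁⟩) (_ | ⟨x₂, y₂, h₂⟩) h <;>
    simp only [pxy, Option.some.injEq, Prod.mk.injEq, reduceCtorEq] at h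
  · rfl
  · obtain ⟨rfl, rfl⟩ := h; rfl

lemma finite_setOf_equation (x : F) : {y : F | W.Equation x y}.Finite := by
  set q : F[X] := X ^ 2 + C (W.a₁ * x + W.a₃) * X
      - C (x ^ 3 + W.a₂ * x ^ 2 + W.a₄ * x + W.a₆) with hq
  have hq0 : q ≠ 0 := by
    have h1 : IsLead (X ^ 2 : F[X]) 2 1 := isLead_X_pow 2
    have h2 : IsLead (C (W.a₁ * x + W.a₃) * X : F[X]) 2 0 :=
      ((isLead_C _).mul isLead_X).of_lt (by norm_num)
    have h3 : IsLead (C (x ^ 3 + W.a₂ * x ^ 2 + W.a₄ * x + W.a₆) : F[X]) 2 0 :=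
      (isLead_C _).of_lt (by norm_num)
    exact ((h1.add h2).sub h3).ne_zero (by norm_num)
  refine (Polynomial.finite_setOfPred_isRoot hq0).subset ?_
  intro y hy
  have e := (equation_iff _ _).mp hy
  simp only [Set.mem_ofPred_eq, IsRoot.def, hq, eval_sub, eval_add, eval_mul, eval_pow, eval_X,
    eval_C]
  linear_combination e

theorem finite_torsion [CharZero F] {p : ℕ} (hp : p.Prime) (hp3 : 3 ≤ p) :
    {P : W.Point | p • P = 0}.Finite := by
  set D : F[X] := (xAB W (p - 1)).1 - X * (xAB W (p - 1)).2 with hD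
  have hD0 : D ≠ 0 := xAB_sub_ne_zero W (by omega)
  have hR : {x : F | D.IsRoot x}.Finite := Polynomial.finite_setOfPred_isRoot hD0
  have hT : (⋃ x ∈ {x : F | D.IsRoot x}, (Prod.mk x) '' {y : F | W.Equation x y}).Finite :=
    hR.biUnion fun x _ => (finite_setOf_equation W x).image _
  refine Set.Finite.of_finite_image (f := pxy W) ?_ (pxy_injective W).injOn
  refine ((hT.image some).insert none).subset ?_
  rintro _ ⟨P, hP, rfl⟩
  rcases P with _ | ⟨x, y, h⟩
  · exact Set.mem_insert _ _
  · refine Set.mem_insert_of_mem _ ⟨(x, y), ?_, rfl⟩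
    simp only [Set.mem_iUnion, Set.mem_image, Set.mem_ofPred_eq, Prod.mk.injEq, exists_prop]
    refine ⟨x, ?_, y, h.1, rfl, rfl⟩
    set P : W.Point := Point.some x y h with hPdef
    have hP0 : P ≠ 0 := Point.some_ne_zero h
    have hP' : p • P = 0 := hP
    have : Fact p.Prime := ⟨hp⟩
    have hord : addOrderOf P = p := addOrderOf_eq_prime hP' hP0
    have hj : ∀ j, 1 ≤ j → j ≤ p - 1 → j • P ≠ 0 := by
      intro j h1 h2 h0
      have := addOrderOf_dvd_of_nsmul_eq_zero h0
      rw [hord] at this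
      have := Nat.le_of_dvd (by omega) this
      omega
    obtain ⟨hb, ha⟩ := px_nsmul P (p - 1) (by omega) hj
    have hneg : (p - 1) • P = -P := by
      rw [eq_neg_iff_add_eq_zero, ← succ_nsmul, show p - 1 + 1 = p by omega, hP']
    have hpx : px P = x := rfl
    rw [hpx] at hb
    rw [hneg, px_neg, hpx, eq_div_iff hb] at ha
    simp only [hD, IsRoot.def, eval_sub, eval_mul, eval_X]
    linear_combination -ha

end Fermat.Agent.S42
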