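import Mathlib
import Fermat.Prelude.Def_EllipticCurve_FrobeniusTrace
import Fermat.Agent.S42.TorsionFinite
import Fermat.Agent.S42.NumberFieldLevel

set_option autoImplicit false
set_option linter.unusedSectionVars false

namespace Fermat.Agent.S42

open WeierstrassCurve WeierstrassCurve.Affine IntermediateField
open scoped WeierstrassCurve.Affine

/-- The set of coordinates of a point. -/
def pcoords {F : Type*} [Field F] {W : Affine F} : W.Point → Set F
  | .zero => ∅
  | .some x y _ => {x, y}

lemma finite_pcoords {F : Type*} [Field F] {W : Affine F} (P : W.Point) : (pcoords P).Finite := by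
  rcases P with _ | ⟨x, y, h⟩
  · exact Set.finite_empty
  · exact (Set.finite_singleton y).insert x

/-- The Galois action on the `p`-torsion of a Weierstrass curve over `ℚ` factors through a
finite extension. -/
theorem galoisRep_finiteLevel (W : WeierstrassCurve ℚ) [DecidableEq (AlgebraicClosure ℚ)] {p : ℕ}
    (hp : p.Prime) (hp3 : 3 ≤ p) :
    ∃ L : IntermediateField ℚ (AlgebraicClosure ℚ), FiniteDimensional ℚ L ∧
      ∀ σ : AlgebraicClosure ℚ ≃ₐ[ℚ] AlgebraicClosure ℚ, (∀ x ∈ L, σ x = x) →
        Affine.Point.galoisRepModuleEnd (K := AlgebraicClosure ℚ) ℚ W p σ = 1 := by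
  have hfin : {P : (W⁄(AlgebraicClosure ℚ)).Point | p • P = 0}.Finite :=
    finite_torsion _ hp hp3
  set c : Set (AlgebraicClosure ℚ) :=
    ⋃ P ∈ {P : (W⁄(AlgebraicClosure ℚ)).Point | p • P = 0}, pcoords P with hc
  have hcfin : c.Finite := hfin.biUnion fun P _ => finite_pcoords P
  have : Finite c := hcfin.to_subtype
  have halg := isAlgClosure_rat
  refine ⟨adjoin ℚ c, finiteDimensional_adjoin fun x _ =>
    (halg.isAlgebraic.isAlgebraic x).isIntegral, ?_⟩
  intro σ hσ
  refine LinearMap.ext fun x => Subtype.ext ?_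
  obtain ⟨P, hP⟩ := x
  have hP' : p • P = 0 := by
    have := (Submodule.mem_torsionBy_iff _ _).mp hP
    simpa using this
  show Point.map σ.toAlgHom P = P
  rcases P with _ | ⟨x, y, h⟩
  · rfl
  · have hx : x ∈ c := Set.mem_biUnion (show Point.some x y h ∈ _ from hP') (by simp [pcoords])
    have hy : y ∈ c := Set.mem_biUnion (show Point.some x y h ∈ _ from hP') (by simp [pcoords])
    rw [Point.map_some, Point.some.injEq]
    exact ⟨hσ x (subset_adjoin ℚ c hx), hσ y (subset_adjoin ℚ c hy)⟩

end Fermat.Agent.S42
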