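import Fermat.Statements.S42
import Fermat.Prelude.Def_GaloisRep_Residual
import Fermat.Agent.S42.FreyLevel

set_option autoImplicit false
open FreyPackage

namespace Fermat.Agent.S42

open Polynomial in
lemma trace_det_of_charpoly {K V : Type*} [Field K] [AddCommGroup V] [Module K V]
    [Module.Finite K V] [Module.Free K V]
    (hfr : Module.finrank K V = 2) (f : Module.End K V) (t d : K)
    (h : f.charpoly = X ^ 2 - C t * X + C d) :
    LinearMap.trace K V f = t ∧ LinearMap.det f = d := by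
  constructor
  · have hc : Fintype.card (Module.Free.ChooseBasisIndex K V) = 2 := by
      rw [← Module.finrank_eq_card_chooseBasisIndex, hfr]
    have : Nonempty (Module.Free.ChooseBasisIndex K V) := by
      rw [← Fintype.card_pos_iff, hc]; norm_num
    rw [LinearMap.trace_eq_matrix_trace K (Module.Free.chooseBasis K V) f,
      Matrix.trace_eq_neg_charpoly_coeff, LinearMap.charpoly_toMatrix, hc, h]
    simp [coeff_C]
  · rw [LinearMap.det_eq_sign_charpoly_coeff, hfr, h]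
    simp [coeff_X, coeff_C]

/-- The statement that every normalised weight-2 eigenform has attached residual Galois
representations (the shape of the frozen statement S29). -/
def ResidualAttachment : Prop :=
  ∀ {N : ℕ} {g : CuspForm (CongruenceSubgroup.Gamma0 N) 2} (_ : g.IsNormalizedEigenform)
    {p : ℕ} (_ : p.Prime) {k : Type} [Field k] [CharP k p]
    (φ : integralClosure ℤ ℂ →+* k),
    ∃ ρ : ResidualGaloisRep k, ρ.IsAttachedTo g φ ∧
      ∀ ℓ : ℕ, ℓ.Prime → ¬ ℓ ∣ N * p → ρ.IsUnramifiedAt ℓ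

/-- `S42` follows from the residual attachment statement (`S29`) together with the finiteness of
the `p`-torsion of the Frey curve (proved in `TorsionFinite`). -/
theorem attachment_of_residualAttachment (h29 : ResidualAttachment) (P : FreyPackage) :
    ∀ M : ℕ, 0 < M → P.EigenformResidualAttachmentAt M := by
  intro M _ g hg 𝔪 hmax hpm
  letI : Field (integralClosure ℤ ℂ ⧸ 𝔪) := Ideal.Quotient.field 𝔪
  have hchar : CharP (integralClosure ℤ ℂ ⧸ 𝔪) P.p := by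
    have h0 : ((P.p : ℕ) : integralClosure ℤ ℂ ⧸ 𝔪) = 0 := by
      have : Ideal.Quotient.mk 𝔪 (P.p : integralClosure ℤ ℂ) = 0 :=
        Ideal.Quotient.eq_zero_iff_mem.mpr hpm
      simpa using this
    obtain ⟨q, hq⟩ := CharP.exists (integralClosure ℤ ℂ ⧸ 𝔪)
    have hdvd : q ∣ P.p := (CharP.cast_eq_zero_iff (integralClosure ℤ ℂ ⧸ 𝔪) q P.p).mp h0
    rcases (Nat.dvd_prime P.pp).mp hdvd with h1 | h1
    · exact absurd h1 (CharP.char_ne_one (integralClosure ℤ ℂ ⧸ 𝔪) q)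
    · exact h1 ▸ hq
  letI : Algebra (ZMod P.p) (integralClosure ℤ ℂ ⧸ 𝔪) := ZMod.algebra _ P.p
  obtain ⟨ρ, hatt, -⟩ := h29 hg P.pp (Ideal.Quotient.mk 𝔪)
  obtain ⟨L₁, hL₁, h₁⟩ := ρ.factorsThroughFiniteLevel
  obtain ⟨L₂, hL₂, h₂⟩ := galoisRep_finiteLevel P.freyCurve P.pp (by have := P.hp5; omega)
  obtain ⟨F, i1, i2, i3, i4, i5, hF⟩ :=
    exists_numberField_of_finiteDimensional (L₁ ⊔ L₂) inferInstance
  have hℓK : ∀ ℓ : ℕ, ℓ.Prime → ℓ ≠ P.p → ((ℓ : ℕ) : integralClosure ℤ ℂ ⧸ 𝔪) ≠ 0 := by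
    intro ℓ hℓ hℓp h0
    have := (CharP.cast_eq_zero_iff (integralClosure ℤ ℂ ⧸ 𝔪) P.p ℓ).mp h0
    exact hℓp ((Nat.prime_dvd_prime_iff_eq P.pp hℓ).mp this).symm
  refine ⟨integralClosure ℤ ℂ ⧸ 𝔪, inferInstance, inferInstance, ρ.V, inferInstance, inferInstance,
    ρ.ρ, Ideal.Quotient.mk 𝔪, F, i1, i2, i3, i4, i5, ?_, ρ.finrank_eq, ?_, ?_, ?_⟩
  · rw [Ideal.mk_ker]
  · intro σ hσ
    have hfix := hF σ hσ
    refine Subgroup.mem_inf.mpr ⟨MonoidHom.mem_ker.mpr ?_, MonoidHom.mem_ker.mpr ?_⟩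
    · exact h₂ σ fun x hx => hfix x ((le_sup_right : L₂ ≤ L₁ ⊔ L₂) hx)
    · exact h₁ σ fun x hx => hfix x ((le_sup_left : L₁ ≤ L₁ ⊔ L₂) hx)
  · intro ℓ hℓ hℓM hℓp A hA τ hτ
    obtain ⟨a, ha, hcp⟩ := hatt ℓ hℓ hℓM (hℓK ℓ hℓ hℓp) A hA τ hτ
    exact ⟨a, ha, (trace_det_of_charpoly ρ.finrank_eq _ _ _ hcp).1⟩
  · intro ℓ hℓ hℓM hℓp A hA τ hτ
    obtain ⟨a, ha, hcp⟩ := hatt ℓ hℓ hℓM (hℓK ℓ hℓ hℓp) A hA τ hτ
    exact (trace_det_of_charpoly ρ.finrank_eq _ _ _ hcp).2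

end Fermat.Agent.S42
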