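import Fermat.Agent.S42.XRec

set_option autoImplicit false
set_option linter.unusedSectionVars false

namespace Fermat.Agent.S42

open Polynomial WeierstrassCurve WeierstrassCurve.Affine

variable {F : Type*} [Field F]

/-- `P` has degree at most `d` and its coefficient in degree `d` is `c`. -/
def IsLead (P : F[X]) (d : ℕ) (c : F) : Prop := P.natDegree ≤ d ∧ P.coeff d = c

namespace IsLead

variable {P Q : F[X]} {d e : ℕ} {c c' : F}

lemma congr (h : IsLead P d c) (hd : d = e) (hc : c = c') : IsLead P e c' := by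
  subst hd; subst hc; exact h

lemma mul (h : IsLead P d c) (h' : IsLead Q e c') : IsLead (P * Q) (d + e) (c * c') :=
  ⟨natDegree_mul_le_of_le h.1 h'.1, by
    rw [coeff_mul_add_eq_of_natDegree_le h.1 h'.1, h.2, h'.2]⟩

lemma add (h : IsLead P d c) (h' : IsLead Q d c') : IsLead (P + Q) d (c + c') :=
  ⟨natDegree_add_le_of_degree_le h.1 h'.1, by rw [coeff_add, h.2, h'.2]⟩

lemma sub (h : IsLead P d c) (h' : IsLead Q d c') : IsLead (P - Q) d (c - c') :=
  ⟨(natDegree_sub_le_of_le h.1 h'.1).trans (by simp), by rw [coeff_sub, h.2, h'.2]⟩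

lemma of_lt (h : IsLead P d c) (hde : d < e) : IsLead P e 0 :=
  ⟨h.1.trans hde.le, coeff_eq_zero_of_natDegree_lt (lt_of_le_of_lt h.1 hde)⟩

lemma ne_zero (h : IsLead P d c) (hc : c ≠ 0) : P ≠ 0 := by
  rintro rfl
  exact hc (by simpa using h.2.symm)

end IsLead

lemma isLead_X : IsLead (X : F[X]) 1 1 := ⟨natDegree_X_le, coeff_X_one⟩

lemma isLead_C (a : F) : IsLead (C a) 0 a := ⟨(natDegree_C a).le, coeff_C_zero⟩

lemma isLead_one : IsLead (1 : F[X]) 0 1 := by
  simpa using isLead_C (1 : F)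

lemma isLead_X_pow (n : ℕ) : IsLead (X ^ n : F[X]) n 1 :=
  ⟨natDegree_X_pow_le n, by simp⟩

section Inv

variable [DecidableEq F] (W : Affine F) [CharZero F]

theorem xAB_lead : ∀ m : ℕ, 1 ≤ m → ∃ (d : ℕ) (α : F), α ≠ 0 ∧
    IsLead (xAB W m).1 (d + 1) α ∧ IsLead (xAB W m).2 d ((m : F) ^ 2 * α) := by
  intro m
  induction m using Nat.strong_induction_on with
  | _ m ih =>
    intro hm
    match m, hm, ih with
    | 1, _, _ =>
      refine ⟨0, 1, one_ne_zero, ?_, ?_⟩
      · rw [xAB_one]; exact isLead_X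
      · rw [xAB_one]; exact isLead_one.congr rfl (by simp)
    | 2, _, _ =>
      refine ⟨3, 1, one_ne_zero, ?_, ?_⟩
      · rw [xAB_two]
        have h1 : IsLead (X ^ 4 : F[X]) 4 1 := isLead_X_pow 4
        have h2 : IsLead (C W.b₄ * X ^ 2 : F[X]) 4 0 :=
          ((isLead_C _).mul (isLead_X_pow 2)).of_lt (by norm_num)
        have h3 : IsLead (C (2 * W.b₆) * X : F[X]) 4 0 :=
          ((isLead_C _).mul isLead_X).of_lt (by norm_num)
        have h4 : IsLead (C W.b₈ : F[X]) 4 0 := (isLead_C _).of_lt (by norm_num)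
        exact (((h1.sub h2).sub h3).sub h4).congr rfl (by ring)
      · rw [xAB_two]
        have h1 : IsLead (C 4 * X ^ 3 : F[X]) 3 4 :=
          ((isLead_C _).mul (isLead_X_pow 3)).congr (by norm_num) (by ring)
        have h2 : IsLead (C W.b₂ * X ^ 2 : F[X]) 3 0 :=
          ((isLead_C _).mul (isLead_X_pow 2)).of_lt (by norm_num)
        have h3 : IsLead (C (2 * W.b₄) * X : F[X]) 3 0 :=
          ((isLead_C _).mul isLead_X).of_lt (by norm_num)
        have h4 : IsLead (C W.b₆ : F[X]) 3 0 := (isLead_C _).of_lt (by norm_num)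
        exact (((h1.add h2).add h3).add h4).congr rfl (by push_cast; ring)
    | (m + 3), _, ih =>
      obtain ⟨d, α, hα, hA, hB⟩ := ih (m + 2) (by omega) (by omega)
      obtain ⟨d', α', hα', hA', hB'⟩ := ih (m + 1) (by omega) (by omega)
      set A := (xAB W (m + 2)).1
      set B := (xAB W (m + 2)).2
      set A' := (xAB W (m + 1)).1
      set B' := (xAB W (m + 1)).2
      set n : F := ((m + 2 : ℕ) : F) with hn
      set n' : F := ((m + 1 : ℕ) : F) with hn'
      have hXB : IsLead (X * B) (d + 1) (n ^ 2 * α) :=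
        (isLead_X.mul hB).congr (by omega) (by ring)
      have hD : IsLead (X * B - A) (d + 1) (n ^ 2 * α - α) := hXB.sub hA
      have hS : IsLead (A + X * B) (d + 1) (α + n ^ 2 * α) := hA.add hXB
      have t1 : IsLead (C 2 * (A + X * B) * A * X) (2 * d + 3) (2 * (α + n ^ 2 * α) * α) :=
        ((((isLead_C 2).mul hS).mul hA).mul isLead_X).congr (by omega) (by ring)
      have t2 : IsLead (C W.b₂ * A * X * B) (2 * d + 3) 0 :=
        ((((isLead_C _).mul hA).mul isLead_X).mul hB).of_lt (by omega)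
      have t3 : IsLead (C W.b₄ * (A + X * B) * B) (2 * d + 3) 0 :=
        (((isLead_C _).mul hS).mul hB).of_lt (by omega)
      have t4 : IsLead (C W.b₆ * B * B) (2 * d + 3) 0 :=
        (((isLead_C _).mul hB).mul hB).of_lt (by omega)
      have hT : IsLead (sTil W A B) (2 * d + 3) (2 * (α + n ^ 2 * α) * α) :=
        (((t1.add t2).add t3).add t4).congr rfl (by ring)
      have hDD : IsLead ((X * B - A) * (X * B - A)) (2 * d + 2)
          ((n ^ 2 * α - α) * (n ^ 2 * α - α)) := (hD.mul hD).congr (by omega) rfl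
      have e1 : IsLead (sTil W A B * B') (2 * d + 2 + d' + 1)
          (2 * (α + n ^ 2 * α) * α * (n' ^ 2 * α')) := (hT.mul hB').congr (by omega) rfl
      have e2 : IsLead (A' * ((X * B - A) * (X * B - A))) (2 * d + 2 + d' + 1)
          (α' * ((n ^ 2 * α - α) * (n ^ 2 * α - α))) := (hA'.mul hDD).congr (by omega) rfl
      have e3 : IsLead ((X * B - A) * (X * B - A) * B') (2 * d + 2 + d')
          ((n ^ 2 * α - α) * (n ^ 2 * α - α) * (n' ^ 2 * α')) := (hDD.mul hB').congr rfl rfl
      have hn'0 : n' ≠ 0 := by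
        rw [hn']; exact_mod_cast Nat.succ_ne_zero m
      refine ⟨2 * d + 2 + d', α ^ 2 * α' * n' ^ 4,
        mul_ne_zero (mul_ne_zero (pow_ne_zero 2 hα) hα') (pow_ne_zero 4 hn'0), ?_, ?_⟩
      · rw [xAB_add_three]
        refine (e1.sub e2).congr rfl ?_
        rw [hn, hn']; push_cast; ring
      · rw [xAB_add_three]
        refine e3.congr rfl ?_
        rw [hn, hn']; push_cast; ring

theorem xAB_sub_ne_zero {m : ℕ} (hm : 2 ≤ m) : (xAB W m).1 - X * (xAB W m).2 ≠ 0 := by
  obtain ⟨d, α, hα, hA, hB⟩ := xAB_lead W m (by omega)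
  have hXB : IsLead (X * (xAB W m).2) (d + 1) ((m : F) ^ 2 * α) :=
    (isLead_X.mul hB).congr (by omega) (by ring)
  refine (hA.sub hXB).ne_zero ?_
  have h1 : (m : F) ^ 2 ≠ 1 := by
    intro h
    have h' : m ^ 2 = 1 := by exact_mod_cast h
    have : m = 1 := by
      rcases Nat.pow_eq_one.mp h' with h'' | h''
      · exact h''
      · omega
    omega
  intro h0
  apply h1
  have : α * (1 - (m : F) ^ 2) = 0 := by linear_combination h0
  rcases mul_eq_zero.mp this with h | h
  · exact absurd h hα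
  · linear_combination -h

end Inv

end Fermat.Agent.S42
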