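import Mathlib.AlgebraicGeometry.EllipticCurve.Affine.Point

set_option autoImplicit false
set_option linter.unusedSectionVars false

namespace Fermat.Agent.S42

open WeierstrassCurve WeierstrassCurve.Affine

variable {F : Type*} [Field F] [DecidableEq F] {W : Affine F}

/-- The `x`-coordinate of a point (junk value `0` at the point at infinity). -/
def px : W.Point → F
  | .zero => 0
  | .some x _ _ => x

@[simp] lemma px_some {x y : F} (h : W.Nonsingular x y) : px (Point.some x y h) = x := rfl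

lemma px_neg (P : W.Point) : px (-P) = px P := by
  cases P <;> rfl

/-- The numerator of `x(P+Q) + x(P-Q)`. -/
def sNum (W : Affine F) (x₁ x₂ : F) : F :=
  2 * (x₁ + x₂) * (x₁ * x₂) + W.b₂ * (x₁ * x₂) + W.b₄ * (x₁ + x₂) + W.b₆

lemma px_add_add_px_sub_some {x₁ y₁ x₂ y₂ : F} (h₁ : W.Nonsingular x₁ y₁)
    (h₂ : W.Nonsingular x₂ y₂) (hx : x₁ ≠ x₂) :
    px (Point.some x₁ y₁ h₁ + Point.some x₂ y₂ h₂) + px (Point.some x₁ y₁ h₁ - Point.some x₂ y₂ h₂)
      = sNum W x₁ x₂ / (x₁ - x₂) ^ 2 := by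
  have e₁ := (equation_iff _ _).mp h₁.1
  have e₂ := (equation_iff _ _).mp h₂.1
  have hne : x₁ - x₂ ≠ 0 := sub_ne_zero.mpr hx
  rw [sub_eq_add_neg, Point.neg_some, Point.add_of_X_ne hx, Point.add_of_X_ne hx, px_some, px_some,
    slope_of_X_ne hx, slope_of_X_ne hx]
  simp only [addX, negY, sNum, WeierstrassCurve.b₂, WeierstrassCurve.b₄, WeierstrassCurve.b₆]
  field_simp
  linear_combination 2 * e₁ + 2 * e₂

/-- Numerator of the duplication formula. -/
def dNum (W : Affine F) (x : F) : F := x ^ 4 - W.b₄ * x ^ 2 - 2 * W.b₆ * x - W.b₈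

/-- Denominator of the duplication formula. -/
def dDen (W : Affine F) (x : F) : F := 4 * x ^ 3 + W.b₂ * x ^ 2 + 2 * W.b₄ * x + W.b₆

lemma dDen_eq {x y : F} (h : W.Equation x y) : dDen W x = (y - W.negY x y) ^ 2 := by
  have e := (equation_iff _ _).mp h
  simp only [dDen, negY, WeierstrassCurve.b₂, WeierstrassCurve.b₄, WeierstrassCurve.b₆]
  linear_combination (-4 : F) * e

lemma px_add_self_some {x y : F} (h : W.Nonsingular x y) (hy : y ≠ W.negY x y) :
    px (Point.some x y h + Point.some x y h) = dNum W x / dDen W x := by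
  have e := (equation_iff _ _).mp h.1
  have hD : y - W.negY x y = 2 * y + W.a₁ * x + W.a₃ := by simp only [negY]; ring
  have hne : 2 * y + W.a₁ * x + W.a₃ ≠ 0 := by rw [← hD]; exact sub_ne_zero.mpr hy
  rw [Point.add_self_of_Y_ne hy, px_some, slope_of_Y_ne rfl hy, dDen_eq h.1, hD]
  simp only [addX, dNum, WeierstrassCurve.b₄, WeierstrassCurve.b₆, WeierstrassCurve.b₈]
  generalize hDg : 2 * y + W.a₁ * x + W.a₃ = D at hne ⊢
  field_simp
  subst hDg
  linear_combination (-8 * x - 4 * W.a₂ - W.a₁^2) * e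

end Fermat.Agent.S42
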