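import Fermat.Agent.S42.XCoord

set_option autoImplicit false
set_option linter.unusedSectionVars false

namespace Fermat.Agent.S42

open Polynomial WeierstrassCurve WeierstrassCurve.Affine

variable {F : Type*} [Field F] [DecidableEq F] {W : Affine F}

lemma px_add_of_ne {P Q : W.Point} (hP : P ≠ 0) (hQ : Q ≠ 0) (h₁ : Q + P ≠ 0) (h₂ : Q - P ≠ 0) :
    px Q ≠ px P ∧ px (Q + P) = sNum W (px Q) (px P) / (px Q - px P) ^ 2 - px (Q - P) := by
  rcases P with _ | ⟨x, y, h⟩
  · exact absurd rfl hP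
  rcases Q with _ | ⟨x', y', h'⟩
  · exact absurd rfl hQ
  have hx : x' ≠ x := by
    intro hxx
    rcases (Point.X_eq_iff (h₁ := h') (h₂ := h)).mp hxx with hh | hh
    · exact h₂ (by rw [hh, sub_self])
    · exact h₁ (by rw [hh, neg_add_cancel])
  refine ⟨hx, ?_⟩
  rw [eq_sub_iff_add_eq]
  exact px_add_add_px_sub_some h' h hx

lemma px_add_self_of_ne {P : W.Point} (hP : P ≠ 0) (h₂ : P + P ≠ 0) :
    dDen W (px P) ≠ 0 ∧ px (P + P) = dNum W (px P) / dDen W (px P) := by
  rcases P with _ | ⟨x, y, h⟩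
  · exact absurd rfl hP
  have hy : y ≠ W.negY x y := fun hy => h₂ (Point.add_self_of_Y_eq hy)
  refine ⟨?_, px_add_self_some h hy⟩
  rw [px_some, dDen_eq h.1]
  exact pow_ne_zero 2 (sub_ne_zero.mpr hy)

variable (W) in
/-- Homogenised numerator of `x(P+Q) + x(P-Q)` with `x(Q) = A/B` and `x(P) = X`. -/
noncomputable def sTil (A B : F[X]) : F[X] :=
  C 2 * (A + X * B) * A * X + C W.b₂ * A * X * B + C W.b₄ * (A + X * B) * B + C W.b₆ * B * B

variable (W) in
/-- Numerator/denominator pairs `(A_m, B_m)` with `x(mP) = A_m(x(P)) / B_m(x(P))`. -/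
noncomputable def xAB : ℕ → F[X] × F[X]
  | 0 => (1, 0)
  | 1 => (X, 1)
  | 2 => (X ^ 4 - C W.b₄ * X ^ 2 - C (2 * W.b₆) * X - C W.b₈,
          C 4 * X ^ 3 + C W.b₂ * X ^ 2 + C (2 * W.b₄) * X + C W.b₆)
  | (m + 3) =>
      (sTil W (xAB (m + 2)).1 (xAB (m + 2)).2 * (xAB (m + 1)).2
          - (xAB (m + 1)).1 * ((X * (xAB (m + 2)).2 - (xAB (m + 2)).1)
              * (X * (xAB (m + 2)).2 - (xAB (m + 2)).1)),
       (X * (xAB (m + 2)).2 - (xAB (m + 2)).1) * (X * (xAB (m + 2)).2 - (xAB (m + 2)).1)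
          * (xAB (m + 1)).2)

lemma xAB_one : xAB W 1 = (X, 1) := rfl

lemma xAB_two : xAB W 2 = (X ^ 4 - C W.b₄ * X ^ 2 - C (2 * W.b₆) * X - C W.b₈,
          C 4 * X ^ 3 + C W.b₂ * X ^ 2 + C (2 * W.b₄) * X + C W.b₆) := rfl

lemma xAB_add_three (m : ℕ) : xAB W (m + 3) =
      (sTil W (xAB W (m + 2)).1 (xAB W (m + 2)).2 * (xAB W (m + 1)).2
          - (xAB W (m + 1)).1 * ((X * (xAB W (m + 2)).2 - (xAB W (m + 2)).1)
              * (X * (xAB W (m + 2)).2 - (xAB W (m + 2)).1)),
       (X * (xAB W (m + 2)).2 - (xAB W (m + 2)).1) * (X * (xAB W (m + 2)).2 - (xAB W (m + 2)).1)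
          * (xAB W (m + 1)).2) := by
  rw [xAB]

theorem px_nsmul (P : W.Point) : ∀ m : ℕ, 1 ≤ m → (∀ j, 1 ≤ j → j ≤ m → j • P ≠ 0) →
    (xAB W m).2.eval (px P) ≠ 0 ∧
      px (m • P) = (xAB W m).1.eval (px P) / (xAB W m).2.eval (px P) := by
  intro m
  induction m using Nat.strong_induction_on with
  | _ m ih =>
    intro hm hj
    have hP : P ≠ 0 := by simpa using hj 1 le_rfl hm
    match m, hm, ih, hj with
    | 1, _, _, _ => simp [xAB_one]
    | 2, _, _, hj =>
      have h2 : P + P ≠ 0 := by simpa [two_nsmul] using hj 2 (by norm_num) le_rfl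
      obtain ⟨hd, he⟩ := px_add_self_of_ne hP h2
      have e1 : (xAB W 2).2.eval (px P) = dDen W (px P) := by
        simp [xAB_two, dDen]
      have e2 : (xAB W 2).1.eval (px P) = dNum W (px P) := by
        simp [xAB_two, dNum]
      rw [e1, e2, two_nsmul]
      exact ⟨hd, he⟩
    | (m + 3), _, ih, hj =>
      obtain ⟨hb, ha⟩ := ih (m + 2) (by omega) (by omega) (fun j h1 h2 => hj j h1 (by omega))
      obtain ⟨hb', ha'⟩ := ih (m + 1) (by omega) (by omega) (fun j h1 h2 => hj j h1 (by omega))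
      have hQ : (m + 2) • P ≠ 0 := hj (m + 2) (by omega) (by omega)
      have h₁ : (m + 2) • P + P ≠ 0 := by
        have := hj (m + 3) (by omega) le_rfl
        rwa [show m + 3 = (m + 2) + 1 from rfl, succ_nsmul] at this
      have h₂ : (m + 2) • P - P ≠ 0 := by
        have := hj (m + 1) (by omega) (by omega)
        rwa [show (m + 2) • P - P = (m + 1) • P by
          rw [show m + 2 = (m + 1) + 1 from rfl, succ_nsmul, add_sub_cancel_right]]
      obtain ⟨hne, hadd⟩ := px_add_of_ne hP hQ h₁ h₂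
      have e3 : (m + 3) • P = (m + 2) • P + P := by
        rw [show m + 3 = (m + 2) + 1 from rfl, succ_nsmul]
      have e1 : (m + 2) • P - P = (m + 1) • P := by
        rw [show m + 2 = (m + 1) + 1 from rfl, succ_nsmul, add_sub_cancel_right]
      rw [e3, hadd, e1, ha, ha'] at *
      set x := px P with hx
      set a := (xAB W (m + 2)).1.eval x with hadef
      set b := (xAB W (m + 2)).2.eval x with hbdef
      set a' := (xAB W (m + 1)).1.eval x with ha'def
      set b' := (xAB W (m + 1)).2.eval x with hb'def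
      have hab : x * b - a ≠ 0 := by
        intro h0
        apply hne
        rw [div_eq_iff hb]
        linear_combination -h0
      have eB : (xAB W (m + 3)).2.eval x = (x * b - a) * (x * b - a) * b' := by
        rw [xAB_add_three]
        simp [← hadef, ← hbdef, ← hb'def]
      have eA : (xAB W (m + 3)).1.eval x =
          (2 * (a + x * b) * a * x + W.b₂ * a * x * b + W.b₄ * (a + x * b) * b + W.b₆ * b * b) * b'
            - a' * ((x * b - a) * (x * b - a)) := by
        rw [xAB_add_three]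
        simp [sTil, ← hadef, ← hbdef, ← hb'def, ← ha'def]
      rw [eA, eB]
      refine ⟨mul_ne_zero (mul_ne_zero hab hab) hb', ?_⟩
      have key : sNum W (a / b) x / (a / b - x) ^ 2 =
          (2 * (a + x * b) * a * x + W.b₂ * a * x * b + W.b₄ * (a + x * b) * b + W.b₆ * b * b)
            / ((x * b - a) * (x * b - a)) := by
        rw [div_eq_div_iff (pow_ne_zero 2 (sub_ne_zero.mpr hne)) (mul_ne_zero hab hab)]
        simp only [sNum]
        field_simp
        ring
      rw [key, div_sub_div _ _ (mul_ne_zero hab hab) hb']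
      congr 1
      ring

end Fermat.Agent.S42
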